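import Fermat.Agent.FF2.S32X.RoofArtinian
import Fermat.Agent.FF2.S32R.RoofAnn

/-!
# FF2 / S32X, leaf L7 (LOCAL) in annihilator form

`ann_of_ch_artinian` : the hypotheses of helper7's `exists_roof` WITHOUT `[IsLocalRing R]`
(`R` any commutative Artinian ring, e.g. a finite one) imply that every `u ∈ ℤ[G]` killing `M`
(through `αM`) kills `N` (through `αN`): this is the `hann` shape of helper11's
`S32M.isFlatAt_of_ann`.

Chain: `u` kills `M` ⇒ kills `M ⧸ J M` (`J` from `exists_local_quotient`) ⇒ (roof over the local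
factor `R ⧸ J`, helper15's `ann_of_roof`) kills `N`.

Branch-only work for the conditional proof of S32.
-/

set_option autoImplicit false
set_option linter.style.haveILetI false
set_option linter.unusedSectionVars false

namespace Fermat.Agent.FF2.S32X

variable {R A G M N : Type*} [CommRing R] [IsArtinianRing R]
  [CommRing A] [IsLocalRing A] [Group G]
  [AddCommGroup M] [Module R M] [Module.Finite R M]
  [AddCommGroup N] [Module A N] [Module.Free A N] [Module.Finite A N]

/-- **L7 (LOCAL), annihilator form.** -/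
theorem ann_of_ch_artinian
    (hfaith : ∀ r : R, (∀ m : M, r • m = 0) → r = 0)
    (αM : G →* Module.End R M) (t d : G → R)
    (hch : ∀ g, αM g * αM g = t g • αM g - d g • (1 : Module.End R M))
    (Φ : R →+* A) (hΦ : Function.Surjective Φ)
    (hN : Module.finrank A N = 2)
    (αN : G →* Module.End A N)
    (hspan : Submodule.span A (Set.range αN) = ⊤)
    (htr : ∀ g, Φ (t g) = LinearMap.trace A N (αN g))
    (hdet : ∀ g, Φ (d g) = LinearMap.det (αN g))
    (u : G →₀ ℤ) (hu : ∀ m : M, u.sum (fun g n => n • αM g m) = 0) (y : N) :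
    u.sum (fun g n => n • αN g y) = 0 := by
  obtain ⟨J, n, ρR, ι, π, hι, hπ, hιeq, hπeq⟩ :=
    exists_roof_of_artinian hfaith αM t d hch Φ hΦ hN αN hspan htr hdet
  refine Fermat.Agent.FF2.S32R.ann_of_roof (quotAction J αM) αN ρR ι π hι hπ hιeq hπeq u
    (fun x => ?_) y
  obtain ⟨m, rfl⟩ := Submodule.Quotient.mk_surjective _ x
  have h1 := congrArg (Submodule.Quotient.mk (p := J • (⊤ : Submodule R M))) (hu m)
  rw [Submodule.Quotient.mk_zero, Finsupp.sum, ← Submodule.mkQ_apply, map_sum] at h1
  rw [Finsupp.sum, ← h1]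
  refine Finset.sum_congr rfl fun g _ => ?_
  rw [map_zsmul]
  rfl

/-- **L7 (LOCAL), annihilator form, `Module.End` version.** -/
theorem ann_of_ch_artinian_end
    (hfaith : ∀ r : R, (∀ m : M, r • m = 0) → r = 0)
    (αM : G →* Module.End R M) (t d : G → R)
    (hch : ∀ g, αM g * αM g = t g • αM g - d g • (1 : Module.End R M))
    (Φ : R →+* A) (hΦ : Function.Surjective Φ)
    (hN : Module.finrank A N = 2)
    (αN : G →* Module.End A N)
    (hspan : Submodule.span A (Set.range αN) = ⊤)
    (htr : ∀ g, Φ (t g) = LinearMap.trace A N (αN g))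
    (hdet : ∀ g, Φ (d g) = LinearMap.det (αN g))
    (u : G →₀ ℤ) (hu : (u.sum fun g n => n • αM g) = 0) :
    (u.sum fun g n => n • αN g) = 0 := by
  apply LinearMap.ext
  intro y
  rw [Fermat.Agent.FF2.S32R.sum_zsmul_end_apply, LinearMap.zero_apply]
  refine ann_of_ch_artinian hfaith αM t d hch Φ hΦ hN αN hspan htr hdet u (fun x => ?_) y
  rw [← Fermat.Agent.FF2.S32R.sum_zsmul_end_apply, hu, LinearMap.zero_apply]

end Fermat.Agent.FF2.S32X
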