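import Fermat.Agent.FF2.S32X.TraceModI
import Fermat.Agent.S37
import Fermat.Agent.Cheb.Cross.ChebExactMain

/-!
# FF2 / S32X (CH-X), part 3: unconditional forms

`S37` (landed) and the exact Chebotarev theorem `Cheb.chebExact` (landed) plugged into
`exists_quadratic_on_torsion` / `exists_quadratic_charpoly` / `exists_quadratic_trace_det`.  The only
hypothesis left is the finiteness `(G0)` of `J₀(N)[p^m]`.

Branch-only work for the conditional proof of S32.
-/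

set_option autoImplicit false
set_option linter.style.haveILetI false
set_option linter.unusedSectionVars false

open ModularCurve Polynomial

namespace Fermat.Agent.FF2.S32X

open Fermat.Agent.Jac Fermat.Agent.Pseudo.JZ Fermat.Agent.Cheb

local notation "Qb" => AlgebraicClosure ℚ
local notation "GQ" => (AlgebraicClosure ℚ ≃ₐ[ℚ] AlgebraicClosure ℚ)

/-- The frozen statement S37 at `(N, p)` in the shape consumed by Program T. -/
theorem h37 (N p : ℕ) [NeZero N] [Fact p.Prime] : H37 N p :=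
  Fermat.Agent.S37.result N p (Fermat.Agent.Jac.heckeOperatorsCommuteBar N)

section

variable {N p : ℕ} [NeZero N] [hp : Fact p.Prime]

/-- **(CH-X)**, unconditional: `g² − T_q g + q = 0` on the finite group `J₀(N)[p^m]`. -/
theorem exists_quadratic_on_torsion' (m : ℕ)
    (hfin : Finite ↥(Submodule.torsionBy ℤ (JZero N) ((p : ℤ) ^ m)))
    (L₀ : IntermediateField ℚ Qb) [FiniteDimensional ℚ L₀] (T : Finset ℕ) (g : GQ) :
    letI := heckeModuleBar N
    ∃ (q : ℕ) (hq : q.Prime), q ∉ T ∧ ¬ q ∣ N * p ∧ ∃ (P : ValuationSubring Qb) (φ : GQ),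
      P.LiesOverPrime q ∧ P.IsFrobeniusAt φ q ∧ (∀ a ∈ L₀, g a = φ a) ∧
      ∀ x : JZero N, (p : ℤ) ^ m • x = 0 →
        g • g • x - heckeGen ⟨q, hq⟩ • (g • x) + q • x = 0 :=
  exists_quadratic_on_torsion (h37 N p) chebExact m hfin L₀ T g

end

section Datum

variable {p : ℕ} [hp : Fact p.Prime] {N : ℕ} [NeZero N] {S : Finset ℕ}
  {𝒪 : Type} [CommRing 𝒪] [IsDomain 𝒪] [IsDiscreteValuationRing 𝒪]
  [IsAdicComplete (IsLocalRing.maximalIdeal 𝒪) 𝒪]
  {θ : CuspForm.heckeAlgebra N 2 (↑S : Set ℕ) →+* IsLocalRing.ResidueField 𝒪}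
  {T : Type} [CommRing T] [IsLocalRing T] [IsNoetherianRing T]
  [IsAdicComplete (IsLocalRing.maximalIdeal T) T] [Algebra 𝒪 T] [IsLocalHom (algebraMap 𝒪 T)]
  [Module.Finite 𝒪 T] [Module.Free 𝒪 T]

open CuspForm

/-- **(CH-X)**, unconditional, characteristic polynomial form, for `T ⧸ I` finite. -/
theorem exists_quadratic_charpoly' (m : ℕ)
    (hfin : Finite ↥(Submodule.torsionBy ℤ (JZero N) ((p : ℤ) ^ m)))
    (H : HeckeGaloisRepDatum N (↑S : Set ℕ) 𝒪 θ T) (I : Ideal T) [Finite (T ⧸ I)]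
    (T₀ : Finset ℕ) (g : GQ) :
    letI := heckeModuleBar N
    ∃ (q : ℕ) (hq : q.Prime) (hqN : ¬ q ∣ N) (hqS : q ∉ (↑S : Set ℕ)), q ∉ T₀ ∧ ¬ q ∣ N * p ∧
      (∀ x : JZero N, (p : ℤ) ^ m • x = 0 →
        g • g • x - heckeGen ⟨q, hq⟩ • (g • x) + q • x = 0) ∧
      LinearMap.charpoly (redHom H.ρ I g) =
        X ^ 2 - C (Ideal.Quotient.mk I (H.π (heckeAlgebra.T hq hqN hqS))) * X + C (q : T ⧸ I) := by
  obtain ⟨n, hn⟩ := exists_pow_maximalIdeal_le I
  exact exists_quadratic_charpoly (h37 N p) chebExact m hfin H I n hn T₀ g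

/-- **(CH-X)**, unconditional, trace/determinant form, for `T ⧸ I` finite. -/
theorem exists_quadratic_trace_det' (m : ℕ)
    (hfin : Finite ↥(Submodule.torsionBy ℤ (JZero N) ((p : ℤ) ^ m)))
    (H : HeckeGaloisRepDatum N (↑S : Set ℕ) 𝒪 θ T) (I : Ideal T) [Finite (T ⧸ I)]
    (T₀ : Finset ℕ) (g : GQ) :
    letI := heckeModuleBar N
    ∃ (q : ℕ) (hq : q.Prime) (hqN : ¬ q ∣ N) (hqS : q ∉ (↑S : Set ℕ)), q ∉ T₀ ∧ ¬ q ∣ N * p ∧
      (∀ x : JZero N, (p : ℤ) ^ m • x = 0 →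
        g • g • x - heckeGen ⟨q, hq⟩ • (g • x) + q • x = 0) ∧
      H.ρ.trace g - H.π (heckeAlgebra.T hq hqN hqS) ∈ I ∧
      ((H.ρ.det g : Tˣ) : T) - (q : T) ∈ I := by
  obtain ⟨n, hn⟩ := exists_pow_maximalIdeal_le I
  exact exists_quadratic_trace_det (h37 N p) chebExact m hfin H I n hn T₀ g

end Datum

end Fermat.Agent.FF2.S32X
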