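import Fermat.Agent.Pseudo.TraceJZero
import Fermat.Agent.Cheb.DeuringExact
import Fermat.Agent.Cheb.FrobCompare

/-!
# FF2 / S32X (CH-X), part 1: every `g ∈ G_ℚ` acts on the finite group `J₀(N)[p^m]` as a Frobenius

`X := {x : JZero N | p^m • x = 0}` finite (this is `(G0)`).  Then

* `exists_finite_fixing_torsion` : `X` is fixed pointwise by the Galois group of a finite extension;
* `exists_frobenius_eq_on` : (Chebotarev, exact form) every `g ∈ G_ℚ` agrees on `X` and on a given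
  finite extension `L₀/ℚ` with a Frobenius element at a prime `q` outside a given finite set;
* `exists_quadratic_on_torsion` : hence, given the frozen statement S37 at `(N, p)`,
  `g² − T_q g + q = 0` on `X`.

Branch-only work for the conditional proof of S32.
-/

set_option autoImplicit false
set_option linter.style.haveILetI false
set_option linter.unusedSectionVars false

open ModularCurve

namespace Fermat.Agent.FF2.S32X

open Fermat.Agent.Jac Fermat.Agent.Pseudo.JZ

local notation "Qb" => AlgebraicClosure ℚ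
local notation "GQ" => (AlgebraicClosure ℚ ≃ₐ[ℚ] AlgebraicClosure ℚ)

section Fixing

variable (N : ℕ) [NeZero N]

/-- A finite set of points of `JZero N` is fixed by the Galois group of a finite extension. -/
theorem exists_finite_fixing_finset (s : Finset (JZero N)) :
    ∃ L : IntermediateField ℚ Qb, FiniteDimensional ℚ L ∧
      ∀ σ : GQ, (∀ a ∈ L, σ a = a) → ∀ x ∈ s, σ • x = x := by
  classical
  induction s using Finset.induction_on with
  | empty => exact ⟨⊥, inferInstance, fun _ _ x hx => absurd hx (Finset.notMem_empty x)⟩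
  | insert y s _ ih =>
    obtain ⟨L₁, h₁, hL₁⟩ := Fermat.Agent.Res.exists_finite_fixing_JZero N y
    obtain ⟨L₂, h₂, hL₂⟩ := ih
    refine ⟨L₁ ⊔ L₂, IntermediateField.finiteDimensional_sup L₁ L₂, fun σ hσ x hx => ?_⟩
    rcases Finset.mem_insert.mp hx with rfl | hx
    · exact hL₁ σ fun a ha => hσ a ((le_sup_left : L₁ ≤ L₁ ⊔ L₂) ha)
    · exact hL₂ σ (fun a ha => hσ a ((le_sup_right : L₂ ≤ L₁ ⊔ L₂) ha)) x hx

/-- A finite torsion subgroup of `JZero N` is fixed pointwise by the Galois group of a finite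
extension. -/
theorem exists_finite_fixing_torsion (c : ℤ)
    (hfin : Finite ↥(Submodule.torsionBy ℤ (JZero N) c)) :
    ∃ L : IntermediateField ℚ Qb, FiniteDimensional ℚ L ∧
      ∀ σ : GQ, (∀ a ∈ L, σ a = a) → ∀ x : JZero N, c • x = 0 → σ • x = x := by
  classical
  haveI := Fintype.ofFinite ↥(Submodule.torsionBy ℤ (JZero N) c)
  obtain ⟨L, hL, h⟩ := exists_finite_fixing_finset N
    ((Finset.univ : Finset ↥(Submodule.torsionBy ℤ (JZero N) c)).image Subtype.val)
  refine ⟨L, hL, fun σ hσ x hx => h σ hσ x ?_⟩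
  rw [Finset.mem_image]
  exact ⟨⟨x, (Submodule.mem_torsionBy_iff _ _).mpr hx⟩, Finset.mem_univ _, rfl⟩

end Fixing

section Cheb

variable (N : ℕ) [NeZero N]

/-- **(CH-X), Chebotarev step.** Every `g ∈ G_ℚ` agrees, on a finite torsion subgroup of `JZero N`
and on a given finite extension of `ℚ`, with a Frobenius element at a prime outside a given
finite set. -/
theorem exists_frobenius_eq_on (hcheb : Fermat.Agent.Cheb.ChebExact) (c : ℤ)
    (hfin : Finite ↥(Submodule.torsionBy ℤ (JZero N) c))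
    (L₀ : IntermediateField ℚ Qb) [FiniteDimensional ℚ L₀] (T : Finset ℕ) (g : GQ) :
    ∃ q : ℕ, q.Prime ∧ q ∉ T ∧ ∃ (P : ValuationSubring Qb) (φ : GQ),
      P.LiesOverPrime q ∧ P.IsFrobeniusAt φ q ∧ (∀ a ∈ L₀, g a = φ a) ∧
      ∀ x : JZero N, c • x = 0 → g • x = φ • x := by
  obtain ⟨L₁, hL₁, hfix⟩ := exists_finite_fixing_torsion N c hfin
  have hfd : FiniteDimensional ℚ ↥(L₀ ⊔ L₁) := IntermediateField.finiteDimensional_sup L₀ L₁
  obtain ⟨q, hq, hqT, P, φ, hP, hφ, hσ⟩ := hcheb (L₀ ⊔ L₁) hfd g T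
  refine ⟨q, hq, hqT, P, φ, hP, hφ,
    fun a ha => hσ a ((le_sup_left : L₀ ≤ L₀ ⊔ L₁) ha), fun x hx => ?_⟩
  have h1 : ∀ a ∈ L₁, (φ⁻¹ * g) a = a := by
    intro a ha
    rw [AlgEquiv.mul_apply, hσ a ((le_sup_right : L₁ ≤ L₀ ⊔ L₁) ha)]
    exact φ.symm_apply_apply a
  have h2 := hfix (φ⁻¹ * g) h1 x hx
  have h3 : g = φ * (φ⁻¹ * g) := by group
  rw [h3, mul_smul, h2]

end Cheb

section Quadratic

variable {N p : ℕ} [NeZero N] [hp : Fact p.Prime]

/-- **(CH-X), quadratic relation.** Given the frozen statement S37 at `(N, p)`: every `g ∈ G_ℚ`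
satisfies `g² − T_q g + q = 0` on `J₀(N)[p^m]` for some prime `q ∤ N p` outside a given finite set,
and agrees with a Frobenius at `q` on a given finite extension of `ℚ`. -/
theorem exists_quadratic_on_torsion (h37 : H37 N p) (hcheb : Fermat.Agent.Cheb.ChebExact) (m : ℕ)
    (hfin : Finite ↥(Submodule.torsionBy ℤ (JZero N) ((p : ℤ) ^ m)))
    (L₀ : IntermediateField ℚ Qb) [FiniteDimensional ℚ L₀] (T : Finset ℕ) (g : GQ) :
    letI := heckeModuleBar N
    ∃ (q : ℕ) (hq : q.Prime), q ∉ T ∧ ¬ q ∣ N * p ∧ ∃ (P : ValuationSubring Qb) (φ : GQ),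
      P.LiesOverPrime q ∧ P.IsFrobeniusAt φ q ∧ (∀ a ∈ L₀, g a = φ a) ∧
      ∀ x : JZero N, (p : ℤ) ^ m • x = 0 →
        g • g • x - heckeGen ⟨q, hq⟩ • (g • x) + q • x = 0 := by
  letI := heckeModuleBar N
  haveI := smulCommClass_GQ_heckeAlg N
  classical
  have hNp : N * p ≠ 0 := Nat.mul_ne_zero (NeZero.ne N) hp.out.ne_zero
  obtain ⟨q, hq, hqT, P, φ, hP, hφ, hL₀, hX⟩ :=
    exists_frobenius_eq_on N hcheb ((p : ℤ) ^ m) hfin L₀ (T ∪ (N * p).primeFactors) g
  have hqT' : q ∉ T := fun h => hqT (Finset.mem_union_left _ h)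
  have hqNp : ¬ q ∣ N * p := fun h =>
    hqT (Finset.mem_union_right _ (Nat.mem_primeFactors.mpr ⟨hq, h, hNp⟩))
  refine ⟨q, hq, hqT', hqNp, P, φ, hP, hφ, hL₀, fun x hx => ?_⟩
  have hFQ := frobeniusQuadratic_of_H37 (N := N) (p := p) h37
  have hx' : ∃ n : ℕ, p ^ n • x = 0 := ⟨m, by
    have : ((p ^ m : ℕ) : ℤ) • x = 0 := by rw [Nat.cast_pow]; exact hx
    rwa [natCast_zsmul] at this⟩
  have h1 := hFQ q hq hqNp P hP φ hφ x hx'
  have hgx : (p : ℤ) ^ m • (g • x) = 0 := by
    rw [smul_comm, hx]; exact smul_zero (A := JZero N) g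
  rw [hX x hx, hX (φ • x) (by rw [← hX x hx]; exact hgx)]
  exact h1

end Quadratic

end Fermat.Agent.FF2.S32X
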