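import Mathlib

/-!
# FF2 / S32X (LF): the local factor of an Artinian ring through which a map to a local ring factors

`R` a commutative Artinian ring, `A` a local ring, `Φ : R →+* A` surjective, `M` a faithful
`R`-module.  Then there is an ideal `J ≤ ker Φ` such that `R ⧸ J` is local and `M ⧸ J M` is a
faithful `R ⧸ J`-module (`J = 𝔫 ^ c` for `𝔫 = Φ⁻¹ 𝔪_A` and `c ≫ 0`; it is generated by an idempotent,
`R ⧸ J` is the local factor `R_𝔫` of `R`).

Mathlib only.  Branch-only work for the conditional proof of S32.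
-/

set_option autoImplicit false
set_option linter.style.haveILetI false
set_option linter.unnecessarySimpa false

namespace Fermat.Agent.FF2.S32X

open IsLocalRing

section

variable {R : Type*} [CommRing R] [IsArtinianRing R]

/-- In an Artinian ring, the powers of an ideal stabilise at an ideal generated by an idempotent. -/
theorem exists_idempotent_pow_eq (𝔫 : Ideal R) :
    ∃ (c : ℕ) (f : R), 0 < c ∧ IsIdempotentElem f ∧ 𝔫 ^ c = Ideal.span {f} := by
  -- the chain of powers stabilises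
  obtain ⟨c₀, hc₀⟩ := IsArtinian.monotone_stabilizes
    (⟨fun k => OrderDual.toDual (𝔫 ^ k), fun a b hab => Ideal.pow_le_pow_right hab⟩ :
      ℕ →o (Ideal R)ᵒᵈ)
  have hstab : ∀ k, c₀ ≤ k → 𝔫 ^ c₀ = 𝔫 ^ k := fun k hk => by
    have := hc₀ k hk
    exact congrArg OrderDual.ofDual this
  set c := c₀ + 1 with hc
  have hQ : 𝔫 ^ c = 𝔫 ^ c₀ := (hstab c (Nat.le_succ c₀)).symm
  have hidem : IsIdempotentElem (𝔫 ^ c) := by
    show 𝔫 ^ c * 𝔫 ^ c = 𝔫 ^ c
    rw [← pow_add, hQ]
    exact (hstab (c + c) (by omega)).symm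
  obtain ⟨f, hf, hfe⟩ := (Ideal.isIdempotentElem_iff_of_fg _
    (IsNoetherian.noetherian (𝔫 ^ c))).mp hidem
  exact ⟨c, f, Nat.succ_pos c₀, hf, hfe⟩

end

section

variable {R A M : Type*} [CommRing R] [IsArtinianRing R] [CommRing A] [IsLocalRing A]
  [AddCommGroup M] [Module R M]

/-- **(LF)** The local factor of an Artinian ring through which a surjection to a local ring
factors, together with the induced faithful quotient of a faithful module. -/
theorem exists_local_quotient (hfaith : ∀ r : R, (∀ m : M, r • m = 0) → r = 0)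
    (Φ : R →+* A) (hΦ : Function.Surjective Φ) :
    ∃ J : Ideal R, J ≤ RingHom.ker Φ ∧ IsLocalRing (R ⧸ J) ∧
      ∀ r : R, (∀ m : M, r • m ∈ J • (⊤ : Submodule R M)) → r ∈ J := by
  set 𝔫 : Ideal R := (maximalIdeal A).comap Φ with h𝔫
  haveI h𝔫max : 𝔫.IsMaximal := Ideal.comap_isMaximal_of_surjective Φ hΦ
  obtain ⟨c, f, hc, hf, hJ⟩ := exists_idempotent_pow_eq 𝔫
  have hf𝔫 : f ∈ 𝔫 := by
    have : f ∈ 𝔫 ^ c := by rw [hJ]; exact Ideal.mem_span_singleton_self f
    exact Ideal.pow_le_self hc.ne' this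
  -- `Φ f = 0`
  have hΦf : Φ f = 0 := by
    have h1 : Φ f ∈ maximalIdeal A := hf𝔫
    have h2 : IsUnit (1 - Φ f) := by
      by_contra hnu
      have h3 : (1 - Φ f) ∈ maximalIdeal A := hnu
      have : (1 : A) ∈ maximalIdeal A := by
        have := (maximalIdeal A).add_mem h3 h1
        simpa using this
      exact (maximalIdeal.isMaximal A).ne_top ((Ideal.eq_top_iff_one _).mpr this)
    have h4 : Φ f * (1 - Φ f) = 0 := by
      rw [mul_sub, mul_one, ← map_mul, hf.eq, sub_self]
    exact (h2.mul_left_eq_zero).mp h4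
  refine ⟨𝔫 ^ c, ?_, ?_, ?_⟩
  · -- `J ≤ ker Φ`
    rw [hJ, Ideal.span_le]
    intro x hx
    rw [Set.mem_singleton_iff] at hx
    rw [hx]
    exact (RingHom.mem_ker).mpr hΦf
  · -- `R ⧸ J` is local
    have hne : 𝔫 ^ c ≠ ⊤ := fun h =>
      h𝔫max.ne_top (top_le_iff.mp (h ▸ Ideal.pow_le_self hc.ne'))
    haveI : Nontrivial (R ⧸ 𝔫 ^ c) := Ideal.Quotient.nontrivial_iff.mpr hne
    refine IsLocalRing.of_isUnit_or_isUnit_one_sub_self fun a => ?_
    obtain ⟨a, rfl⟩ := Ideal.Quotient.mk_surjective a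
    -- a unit modulo `𝔫` is a unit modulo `𝔫 ^ c`
    have key : ∀ b : R, b ∉ 𝔫 → IsUnit (Ideal.Quotient.mk (𝔫 ^ c) b) := by
      intro b hb
      obtain ⟨b', hb'⟩ := Ideal.Quotient.exists_inv (I := 𝔫) (by
        rwa [Ne, Ideal.Quotient.eq_zero_iff_mem] : Ideal.Quotient.mk 𝔫 b ≠ 0)
      obtain ⟨b', rfl⟩ := Ideal.Quotient.mk_surjective b'
      rw [← map_mul, ← map_one (Ideal.Quotient.mk 𝔫), Ideal.Quotient.eq] at hb'
      -- `b * b' = 1 + x`, `x ∈ 𝔫`, `x ^ c ∈ J`
      have hnil : IsNilpotent (Ideal.Quotient.mk (𝔫 ^ c) (b * b' - 1)) :=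
        ⟨c, by
          rw [← map_pow, Ideal.Quotient.eq_zero_iff_mem]
          exact Ideal.pow_mem_pow hb' c⟩
      have hu : IsUnit (Ideal.Quotient.mk (𝔫 ^ c) (b * b')) := by
        have : Ideal.Quotient.mk (𝔫 ^ c) (b * b') =
            Ideal.Quotient.mk (𝔫 ^ c) (b * b' - 1) + 1 := by
          rw [map_sub, map_one]; ring
        rw [this]
        exact hnil.isUnit_add_one
      rw [map_mul] at hu
      exact isUnit_of_mul_isUnit_left hu
    by_cases ha : a ∈ 𝔫
    · right
      have : (1 - a) ∉ 𝔫 := fun h => h𝔫max.ne_top ((Ideal.eq_top_iff_one _).mpr (by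
        have := 𝔫.add_mem h ha
        simpa using this))
      have := key (1 - a) this
      rwa [map_sub, map_one] at this
    · left
      exact key a ha
  · -- faithfulness of `M ⧸ J M`
    intro r hr
    -- `(1 - f) • J M = 0`
    have hkill : ∀ x ∈ (𝔫 ^ c) • (⊤ : Submodule R M), (1 - f) • x = 0 := by
      intro x hx
      refine Submodule.smul_induction_on hx ?_ ?_
      · intro a ha m _
        rw [hJ, Ideal.mem_span_singleton'] at ha
        obtain ⟨a', rfl⟩ := ha
        rw [← mul_smul]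
        have : (1 - f) * (a' * f) = 0 := by
          have h1 : f * f = f := hf.eq
          calc (1 - f) * (a' * f) = a' * (f - f * f) := by ring
            _ = 0 := by rw [h1, sub_self, mul_zero]
        rw [this, zero_smul]
      · intro x y hx hy
        rw [smul_add, hx, hy, add_zero]
    have h0 : (1 - f) * r = 0 := hfaith _ fun m => by
      rw [mul_smul]
      exact hkill _ (hr m)
    have : r = f * r := by
      have : r - f * r = 0 := by rw [← h0]; ring
      exact sub_eq_zero.mp this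
    rw [this, hJ]
    exact Ideal.mul_mem_right r _ (Ideal.mem_span_singleton_self f)

end

end Fermat.Agent.FF2.S32X
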