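import Fermat.Agent.FF2.S32.ABB
import Fermat.Agent.FF2.S32X.LocalFactor

/-!
# FF2 / S32X : the algebra black box over a (non-local) Artinian ring, subquotient form

`exists_roof` (helper7, `FF2/S32/ABB.lean`) needs a LOCAL Artinian ring `R`.  The ring that occurs
in the proof of S32 (the image of the Hecke polynomial ring in `End (𝒪 ⊗ J₀(N)[p^m])`) is a finite
commutative ring, not local.  Here the local factor is cut out by `exists_local_quotient` and the
conclusion is transported back to `M` itself:

`exists_subquotient_of_artinian` : there are `n`, a subgroup `W ≤ Mⁿ` stable under `G` and a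
surjective `G`-equivariant additive map `W → N`.

Branch-only work for the conditional proof of S32.
-/

set_option autoImplicit false
set_option linter.style.haveILetI false
set_option linter.unusedSectionVars false

namespace Fermat.Agent.FF2.S32X

open Matrix

section Quot

variable {R G M : Type*} [CommRing R] [Group G] [AddCommGroup M] [Module R M] (J : Ideal R)

/-- The action induced on `M ⧸ J M` by an `R`-linear action on `M`. -/
noncomputable def quotEnd (f : Module.End R M) :
    Module.End (R ⧸ J) (M ⧸ J • (⊤ : Submodule R M)) :=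
  LinearMap.extendScalarsOfSurjective (R := R) (S := R ⧸ J) Ideal.Quotient.mk_surjective
    (Submodule.mapQ _ _ f (by
      rw [← Submodule.map_le_iff_le_comap, Submodule.map_smul'']
      exact Submodule.smul_mono le_rfl le_top))

@[simp] theorem quotEnd_mk (f : Module.End R M) (m : M) :
    quotEnd J f (Submodule.Quotient.mk m) = Submodule.Quotient.mk (f m) := rfl

/-- The induced action as a monoid homomorphism. -/
noncomputable def quotAction (αM : G →* Module.End R M) :
    G →* Module.End (R ⧸ J) (M ⧸ J • (⊤ : Submodule R M)) where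
  toFun g := quotEnd J (αM g)
  map_one' := by
    apply LinearMap.ext
    intro x
    obtain ⟨m, rfl⟩ := Submodule.Quotient.mk_surjective _ x
    rw [quotEnd_mk, map_one]
    rfl
  map_mul' g h := by
    apply LinearMap.ext
    intro x
    obtain ⟨m, rfl⟩ := Submodule.Quotient.mk_surjective _ x
    rw [quotEnd_mk, map_mul]
    rfl

@[simp] theorem quotAction_mk (αM : G →* Module.End R M) (g : G) (m : M) :
    quotAction J αM g (Submodule.Quotient.mk m) = Submodule.Quotient.mk (αM g m) := rfl

end Quot

section Roof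

variable {R A G M N : Type*} [CommRing R] [IsArtinianRing R]
  [CommRing A] [IsLocalRing A] [Group G]
  [AddCommGroup M] [Module R M] [Module.Finite R M]
  [AddCommGroup N] [Module A N] [Module.Free A N] [Module.Finite A N]

/-- **The algebra black box over an Artinian ring** (roof over the local factor). -/
theorem exists_roof_of_artinian
    (hfaith : ∀ r : R, (∀ m : M, r • m = 0) → r = 0)
    (αM : G →* Module.End R M) (t d : G → R)
    (hch : ∀ g, αM g * αM g = t g • αM g - d g • (1 : Module.End R M))
    (Φ : R →+* A) (hΦ : Function.Surjective Φ)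
    (hN : Module.finrank A N = 2)
    (αN : G →* Module.End A N)
    (hspan : Submodule.span A (Set.range αN) = ⊤)
    (htr : ∀ g, Φ (t g) = LinearMap.trace A N (αN g))
    (hdet : ∀ g, Φ (d g) = LinearMap.det (αN g)) :
    ∃ (J : Ideal R) (n : ℕ) (ρR : G →* Matrix (Fin 2) (Fin 2) (R ⧸ J))
      (ι : (Fin 2 → R ⧸ J) →+ (Fin n → M ⧸ J • (⊤ : Submodule R M)))
      (π : (Fin 2 → R ⧸ J) →+ N),
      Function.Injective ι ∧ Function.Surjective π ∧
      (∀ g w i, ι (ρR g *ᵥ w) i = quotAction J αM g (ι w i)) ∧
      (∀ g w, π (ρR g *ᵥ w) = αN g (π w)) := by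
  obtain ⟨J, hJ, hloc, hfaithJ⟩ := exists_local_quotient (M := M) hfaith Φ hΦ
  haveI := hloc
  haveI : Module.Finite (R ⧸ J) (M ⧸ J • (⊤ : Submodule R M)) :=
    Module.Finite.of_restrictScalars_finite R _ _
  have hfaith' : ∀ r : R ⧸ J, (∀ m : M ⧸ J • (⊤ : Submodule R M), r • m = 0) → r = 0 := by
    intro r hr
    obtain ⟨r, rfl⟩ := Ideal.Quotient.mk_surjective r
    rw [Ideal.Quotient.eq_zero_iff_mem]
    refine hfaithJ r fun m => ?_
    have := hr (Submodule.Quotient.mk m)
    rw [← Submodule.Quotient.mk_eq_zero]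
    exact this
  have hch' : ∀ g, quotAction J αM g * quotAction J αM g =
      (Ideal.Quotient.mk J (t g)) • quotAction J αM g -
        (Ideal.Quotient.mk J (d g)) • (1 : Module.End (R ⧸ J) (M ⧸ J • (⊤ : Submodule R M))) := by
    intro g
    apply LinearMap.ext
    intro x
    obtain ⟨m, rfl⟩ := Submodule.Quotient.mk_surjective _ x
    have h1 := LinearMap.congr_fun (hch g) m
    simp only [Module.End.mul_apply, LinearMap.sub_apply, LinearMap.smul_apply,
      Module.End.one_apply] at h1
    simp only [Module.End.mul_apply, LinearMap.sub_apply, LinearMap.smul_apply,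
      Module.End.one_apply, quotAction_mk]
    rw [h1]
    rfl
  have hJ' : ∀ a ∈ J, Φ a = 0 := fun a ha => RingHom.mem_ker.mp (hJ ha)
  obtain ⟨n, ρR, ι, π, hι, hπ, hιeq, hπeq⟩ :=
    Fermat.Agent.FF2.S32.exists_roof hfaith' (quotAction J αM)
      (fun g => Ideal.Quotient.mk J (t g)) (fun g => Ideal.Quotient.mk J (d g)) hch'
      (Ideal.Quotient.lift J Φ hJ')
      (fun a => by
        obtain ⟨r, rfl⟩ := hΦ a
        exact ⟨Ideal.Quotient.mk J r, Ideal.Quotient.lift_mk J Φ hJ'⟩)
      hN αN hspan
      (fun g => by rw [Ideal.Quotient.lift_mk]; exact htr g)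
      (fun g => by rw [Ideal.Quotient.lift_mk]; exact hdet g)
  exact ⟨J, n, ρR, ι, π, hι, hπ, hιeq, hπeq⟩

/-- **The algebra black box over an Artinian ring, subquotient form**: `N` is a `G`-equivariant
additive quotient of a `G`-stable subgroup of `Mⁿ`. -/
theorem exists_subquotient_of_artinian
    (hfaith : ∀ r : R, (∀ m : M, r • m = 0) → r = 0)
    (αM : G →* Module.End R M) (t d : G → R)
    (hch : ∀ g, αM g * αM g = t g • αM g - d g • (1 : Module.End R M))
    (Φ : R →+* A) (hΦ : Function.Surjective Φ)
    (hN : Module.finrank A N = 2)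
    (αN : G →* Module.End A N)
    (hspan : Submodule.span A (Set.range αN) = ⊤)
    (htr : ∀ g, Φ (t g) = LinearMap.trace A N (αN g))
    (hdet : ∀ g, Φ (d g) = LinearMap.det (αN g)) :
    ∃ (n : ℕ) (W : AddSubgroup (Fin n → M))
      (hW : ∀ g, ∀ w ∈ W, (fun i => αM g (w i)) ∈ W) (e : W →+ N),
      Function.Surjective e ∧
      ∀ (g : G) (w : W), e ⟨fun i => αM g (w.1 i), hW g w.1 w.2⟩ = αN g (e w) := by
  classical
  obtain ⟨J, n, ρR, ι, π, hι, hπ, hιeq, hπeq⟩ :=
    exists_roof_of_artinian hfaith αM t d hch Φ hΦ hN αN hspan htr hdet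
  -- the componentwise quotient map
  let Q : (Fin n → M) →+ (Fin n → M ⧸ J • (⊤ : Submodule R M)) :=
    { toFun := fun w i => Submodule.Quotient.mk (w i)
      map_zero' := by ext i; rfl
      map_add' := fun v w => by ext i; rfl }
  have hQ : ∀ w i, Q w i = Submodule.Quotient.mk (w i) := fun w i => rfl
  have hQsurj : Function.Surjective Q := by
    intro y
    choose w hw using fun i => Submodule.Quotient.mk_surjective _ (y i)
    exact ⟨w, funext fun i => hw i⟩
  set W : AddSubgroup (Fin n → M) := ι.range.comap Q with hWdef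
  have hQg : ∀ g w, Q (fun i => αM g (w i)) = fun i => quotAction J αM g (Q w i) := by
    intro g w
    ext i
    rfl
  have hW : ∀ g, ∀ w ∈ W, (fun i => αM g (w i)) ∈ W := by
    rintro g w ⟨x, hx⟩
    refine ⟨ρR g *ᵥ x, ?_⟩
    rw [hQg, ← hx]
    ext i
    exact hιeq g x i
  let ιe : (Fin 2 → R ⧸ J) ≃+ ι.range := AddMonoidHom.ofInjective hι
  let q : W →+ ι.range := (Q.comp W.subtype).codRestrict ι.range fun w => w.2
  have hq : ∀ w : W, ((q w : ι.range) : Fin n → M ⧸ J • (⊤ : Submodule R M)) = Q w.1 :=
    fun w => rfl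
  have hqsurj : Function.Surjective q := by
    rintro ⟨y, hy⟩
    obtain ⟨w, rfl⟩ := hQsurj y
    exact ⟨⟨w, hy⟩, rfl⟩
  refine ⟨n, W, hW, (π.comp ιe.symm.toAddMonoidHom).comp q, ?_, ?_⟩
  · exact (hπ.comp ιe.symm.surjective).comp hqsurj
  · intro g w
    show π (ιe.symm (q ⟨fun i => αM g (w.1 i), hW g w.1 w.2⟩)) = αN g (π (ιe.symm (q w)))
    rw [← hπeq]
    congr 1
    apply ιe.injective
    rw [AddEquiv.apply_symm_apply]
    apply Subtype.ext
    rw [hq]
    show Q (fun i => αM g (w.1 i)) = ι (ρR g *ᵥ ιe.symm (q w))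
    have h1 : ι (ιe.symm (q w)) = Q w.1 := by
      have := congrArg Subtype.val (ιe.apply_symm_apply (q w))
      rw [hq] at this
      exact this
    rw [hQg]
    ext i
    rw [hιeq, h1]

end Roof

end Fermat.Agent.FF2.S32X
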