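import Fermat.Agent.FF2.S32X.FrobX
import Fermat.Prelude.Def_CuspForm_HeckeGaloisRepDatum

/-!
# FF2 / S32X (CH-X), part 2: the quadratic relation on `J₀(N)[p^m]` is compatible with `ρ mod I`

For a Hecke–Galois datum `H` over `T` and an ideal `I ⊇ 𝔪_T ^ n` (e.g. `T ⧸ I` finite): every
`g ∈ G_ℚ` satisfies `g² − T_q g + q = 0` on `J₀(N)[p^m]` for a prime `q ∉ S`, `q ∤ N p`, such that
moreover the characteristic polynomial of `ρ(g)` modulo `I` is `X² − π(T_q) X + q`, i.e.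
`tr ρ(g) ≡ π(T_q)` and `det ρ(g) ≡ q` modulo `I`.

Branch-only work for the conditional proof of S32.
-/

set_option autoImplicit false
set_option linter.style.haveILetI false
set_option linter.unusedSectionVars false

open ModularCurve Polynomial

namespace Fermat.Agent.FF2.S32X

open Fermat.Agent.Jac Fermat.Agent.Pseudo.JZ Fermat.Agent.Cheb

local notation "Qb" => AlgebraicClosure ℚ
local notation "GQ" => (AlgebraicClosure ℚ ≃ₐ[ℚ] AlgebraicClosure ℚ)

section Artin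

variable {T : Type*} [CommRing T] [IsLocalRing T]

/-- If `T ⧸ I` is finite, `I` contains a power of the maximal ideal. -/
theorem exists_pow_maximalIdeal_le (I : Ideal T) [Finite (T ⧸ I)] :
    ∃ n : ℕ, IsLocalRing.maximalIdeal T ^ n ≤ I := by
  by_cases hI : I = ⊤
  · exact ⟨0, by rw [hI]; exact le_top⟩
  haveI : Nontrivial (T ⧸ I) := Ideal.Quotient.nontrivial_iff.mpr hI
  haveI : IsLocalRing (T ⧸ I) :=
    IsLocalRing.of_surjective' (Ideal.Quotient.mk I) Ideal.Quotient.mk_surjective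
  haveI : IsArtinianRing (T ⧸ I) := inferInstance
  obtain ⟨n, hn⟩ := IsArtinianRing.isNilpotent_jacobson_bot (R := T ⧸ I)
  rw [IsLocalRing.jacobson_eq_maximalIdeal ⊥ bot_ne_top] at hn
  refine ⟨n, fun x hx => ?_⟩
  have h1 : (IsLocalRing.maximalIdeal T).map (Ideal.Quotient.mk I) ≤
      IsLocalRing.maximalIdeal (T ⧸ I) := by
    rw [Ideal.map_le_iff_le_comap]
    intro a ha
    rw [Ideal.mem_comap, IsLocalRing.mem_maximalIdeal, mem_nonunits_iff]
    intro hu
    have : IsUnit a := by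
      by_contra hna
      have haM : a ∈ IsLocalRing.maximalIdeal T := ha
      -- `1 - a * b ∈ I ⊆ 𝔪` and `a ∈ 𝔪` give `1 ∈ 𝔪`
      obtain ⟨b, hb⟩ := hu.exists_right_inv
      obtain ⟨b', rfl⟩ := Ideal.Quotient.mk_surjective b
      rw [← map_mul, ← map_one (Ideal.Quotient.mk I), Ideal.Quotient.eq] at hb
      have hIle : I ≤ IsLocalRing.maximalIdeal T := IsLocalRing.le_maximalIdeal hI
      have h2 : a * b' - 1 ∈ IsLocalRing.maximalIdeal T := hIle hb
      have h3 : (1 : T) ∈ IsLocalRing.maximalIdeal T := by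
        have := (IsLocalRing.maximalIdeal T).sub_mem
          ((IsLocalRing.maximalIdeal T).mul_mem_right b' haM) h2
        simp at this
      exact (IsLocalRing.maximalIdeal.isMaximal T).ne_top ((Ideal.eq_top_iff_one _).mpr h3)
    exact ha this
  have h2 : Ideal.Quotient.mk I x ∈ (IsLocalRing.maximalIdeal (T ⧸ I)) ^ n := by
    have := Ideal.mem_map_of_mem (Ideal.Quotient.mk I) hx
    rw [Ideal.map_pow] at this
    exact Ideal.pow_right_mono h1 n this
  rw [hn] at h2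
  exact Ideal.Quotient.eq_zero_iff_mem.mp h2

end Artin

section Datum

variable {p : ℕ} [hp : Fact p.Prime] {N : ℕ} [NeZero N] {S : Finset ℕ}
  {𝒪 : Type} [CommRing 𝒪] [IsDomain 𝒪] [IsDiscreteValuationRing 𝒪]
  [IsAdicComplete (IsLocalRing.maximalIdeal 𝒪) 𝒪]
  {θ : CuspForm.heckeAlgebra N 2 (↑S : Set ℕ) →+* IsLocalRing.ResidueField 𝒪}
  {T : Type} [CommRing T] [IsLocalRing T] [IsNoetherianRing T]
  [IsAdicComplete (IsLocalRing.maximalIdeal T) T] [Algebra 𝒪 T] [IsLocalHom (algebraMap 𝒪 T)]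
  [Module.Finite 𝒪 T] [Module.Free 𝒪 T]

open CuspForm

/-- **(CH-X), compatibility with `ρ mod I`, characteristic polynomial form.** -/
theorem exists_quadratic_charpoly (h37 : H37 N p) (hcheb : ChebExact) (m : ℕ)
    (hfin : Finite ↥(Submodule.torsionBy ℤ (JZero N) ((p : ℤ) ^ m)))
    (H : HeckeGaloisRepDatum N (↑S : Set ℕ) 𝒪 θ T) (I : Ideal T) (n : ℕ)
    (hI : IsLocalRing.maximalIdeal T ^ n ≤ I) (T₀ : Finset ℕ) (g : GQ) :
    letI := heckeModuleBar N
    ∃ (q : ℕ) (hq : q.Prime) (hqN : ¬ q ∣ N) (hqS : q ∉ (↑S : Set ℕ)), q ∉ T₀ ∧ ¬ q ∣ N * p ∧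
      (∀ x : JZero N, (p : ℤ) ^ m • x = 0 →
        g • g • x - heckeGen ⟨q, hq⟩ • (g • x) + q • x = 0) ∧
      LinearMap.charpoly (redHom H.ρ I g) =
        X ^ 2 - C (Ideal.Quotient.mk I (H.π (heckeAlgebra.T hq hqN hqS))) * X + C (q : T ⧸ I) := by
  letI := heckeModuleBar N
  obtain ⟨L₁, hL₁, hcont⟩ := H.ρ.isAdicContinuous n
  haveI : FiniteDimensional ℚ L₁ := hL₁
  obtain ⟨q, hq, hqT, hqNp, P, φ, hP, hφ, hL, hquad⟩ :=
    exists_quadratic_on_torsion h37 hcheb m hfin L₁ (T₀ ∪ S) g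
  have hqN : ¬ q ∣ N := fun h => hqNp (Dvd.dvd.mul_right h p)
  have hqS : q ∉ (↑S : Set ℕ) := fun h =>
    hqT (Finset.mem_union_right _ (Finset.mem_coe.mp h))
  refine ⟨q, hq, hqN, hqS, fun h => hqT (Finset.mem_union_left _ h), hqNp, hquad, ?_⟩
  have hfix : ∀ a ∈ L₁, (φ⁻¹ * g) a = a := by
    intro a ha
    rw [AlgEquiv.mul_apply, hL a ha]
    exact φ.symm_apply_apply a
  have hone : redHom H.ρ I (φ⁻¹ * g) = 1 :=
    baseChange_quotient_eq_one I _ fun v =>
      Submodule.smul_mono hI le_rfl (hcont (φ⁻¹ * g) hfix v)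
  have hdec : g = φ * (φ⁻¹ * g) := by group
  have e1 : redHom H.ρ I g = redHom H.ρ I φ := by
    conv_lhs => rw [hdec]
    rw [map_mul, hone, mul_one]
  rw [e1, charpoly_redHom, H.charpoly_frob q hq hqN hqS P hP φ hφ]
  simp [Polynomial.map_sub, Polynomial.map_add, Polynomial.map_mul, Polynomial.map_pow]

/-- **(CH-X), compatibility with `ρ mod I`, trace/determinant form.** -/
theorem exists_quadratic_trace_det (h37 : H37 N p) (hcheb : ChebExact) (m : ℕ)
    (hfin : Finite ↥(Submodule.torsionBy ℤ (JZero N) ((p : ℤ) ^ m)))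
    (H : HeckeGaloisRepDatum N (↑S : Set ℕ) 𝒪 θ T) (I : Ideal T) (n : ℕ)
    (hI : IsLocalRing.maximalIdeal T ^ n ≤ I) (T₀ : Finset ℕ) (g : GQ) :
    letI := heckeModuleBar N
    ∃ (q : ℕ) (hq : q.Prime) (hqN : ¬ q ∣ N) (hqS : q ∉ (↑S : Set ℕ)), q ∉ T₀ ∧ ¬ q ∣ N * p ∧
      (∀ x : JZero N, (p : ℤ) ^ m • x = 0 →
        g • g • x - heckeGen ⟨q, hq⟩ • (g • x) + q • x = 0) ∧
      H.ρ.trace g - H.π (heckeAlgebra.T hq hqN hqS) ∈ I ∧
      ((H.ρ.det g : Tˣ) : T) - (q : T) ∈ I := by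
  letI := heckeModuleBar N
  obtain ⟨q, hq, hqN, hqS, hqT, hqNp, hquad, hch⟩ :=
    exists_quadratic_charpoly h37 hcheb m hfin H I n hI T₀ g
  refine ⟨q, hq, hqN, hqS, hqT, hqNp, hquad, ?_⟩
  rw [charpoly_redHom, charpoly_of_finrank_two H.ρ.finrank_eq (H.ρ.ρ g)] at hch
  have h1 := congrArg (fun f : (T ⧸ I)[X] => f.coeff 1) hch
  have h0 := congrArg (fun f : (T ⧸ I)[X] => f.coeff 0) hch
  simp only [Polynomial.map_sub, Polynomial.map_add, Polynomial.map_mul, Polynomial.map_pow,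
    Polynomial.map_X, Polynomial.map_C, Ideal.Quotient.algebraMap_eq, coeff_add, coeff_sub,
    coeff_X_pow, coeff_C_mul, coeff_X_one, coeff_C_zero, coeff_X_zero, mul_one, mul_zero,
    coeff_C_of_ne_zero one_ne_zero, OfNat.one_ne_ofNat, OfNat.zero_ne_ofNat, if_false, zero_sub,
    sub_zero, add_zero, zero_add, neg_inj] at h1 h0
  constructor
  · rw [← Ideal.Quotient.eq]
    exact h1
  · rw [← Ideal.Quotient.eq, map_natCast]
    have : ((H.ρ.det g : Tˣ) : T) = LinearMap.det (H.ρ.ρ g) := rfl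
    rw [this]
    exact h0

end Datum

end Fermat.Agent.FF2.S32X
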